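import Fermat.Agent.MordellCubes.Points
import Fermat.Agent.FunctionFieldRank.Descent
import Fermat.Agent.Frob.VarChange
import Mathlib.LinearAlgebra.LinearIndependent.Basic

/-!
# A cube root of unity doubles the rank

If `ω` is not in `F` then the only points of `y² = x³ + k` over `F` which `(x, y) ↦ (ω x, y)`
keeps over `F` have `x = 0`, and those are killed by three.
-/

set_option autoImplicit false
set_option linter.unusedSectionVars false
set_option linter.style.haveILetI false

noncomputable section

open WeierstrassCurve
open FA.FunctionFieldRank (pointMap pointMap_some pointMap_injective)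
open scoped Classical

namespace FA.MordellCubes

variable {K : Type*} [Field K] [CharZero K]

/-- The change of variables `x ↦ ω x`. -/
def cubeRootChange {ω : K} (hω : ω ≠ 0) : VariableChange K :=
  ⟨Units.mk0 (ω ^ 2) (pow_ne_zero 2 hω), 0, 0, 0⟩

theorem cubeRootChange_smul {ω : K} (hω : ω ≠ 0) (h3 : ω ^ 3 = 1) (k : K) :
    cubeRootChange hω • mordellCurve k = mordellCurve k := by
  have h : (ω ^ 2) ^ 6 = 1 := by
    rw [← pow_mul, show 2 * 6 = 3 * 4 from rfl, pow_mul, h3, one_pow]
  ext <;> simp [cubeRootChange, mordellCurve, variableChange_a₁, variableChange_a₂,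
    variableChange_a₃, variableChange_a₄, variableChange_a₆, h]

/-- **Independent points and their rotations are independent.** -/
theorem linearIndependent_rotated {F : Type*} [Field F] (g : F →+* K) {ω : K}
    (hω : ω ^ 2 + ω + 1 = 0) (hmem : ∀ a : F, g a ≠ ω) {k : F} (hk : k ≠ 0) {n : ℕ}
    (P : Fin n → (mordellCurve k).toAffine.Point) (hP : LinearIndependent ℤ P) :
    ∃ Q : Fin n ⊕ Fin n → (mordellCurve (g k)).toAffine.Point, LinearIndependent ℤ Q ∧
      ∀ i, Q (.inl i) = pointMap g (mordellCurve_map g k) (P i) := by
  haveI := isElliptic_mordellCurve ((map_ne_zero g).2 hk)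
  have hω0 : ω ≠ 0 := fun h => by simp [h] at hω
  have hω3 : ω ^ 3 = 1 := by linear_combination (ω - 1) * hω
  let ι : (mordellCurve k).toAffine.Point →+ (mordellCurve (g k)).toAffine.Point :=
    pointMap g (mordellCurve_map g k)
  let Ω : (mordellCurve (g k)).toAffine.Point →+ (mordellCurve (g k)).toAffine.Point :=
    (FA.Frob.vcEquiv (cubeRootChange hω0) (cubeRootChange_smul hω0 hω3 (g k))).toAddMonoidHom
  have hinj : Function.Injective ι := pointMap_injective g _
  have hΩinj : Function.Injective Ω :=
    (FA.Frob.vcEquiv (cubeRootChange hω0) (cubeRootChange_smul hω0 hω3 (g k))).injective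
  have hΩsome : ∀ {x y : K} (h : (mordellCurve (g k)).toAffine.Nonsingular x y),
      ∃ h', Ω (.some x y h) = .some (ω * x) y h' := fun {x y} h => by
    have h₁ : FA.Frob.vcX (cubeRootChange hω0) x = ω * x := by
      simp only [FA.Frob.vcX, cubeRootChange, Units.val_mk0, add_zero]
      linear_combination ω * x * hω3
    have h₂ : FA.Frob.vcY (cubeRootChange hω0) x y = y := by
      simp only [FA.Frob.vcY, cubeRootChange, Units.val_mk0, add_zero, zero_mul]
      linear_combination y * (ω ^ 3 + 1) * hω3
    have key : ∀ {P : (mordellCurve (g k)).toAffine.Point} {u v : K}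
        (h' : (mordellCurve (g k)).toAffine.Nonsingular u v), P = .some u v h' →
        u = ω * x → v = y → ∃ h'', P = .some (ω * x) y h'' := by
      rintro P u v h' e rfl rfl
      exact ⟨h', e⟩
    exact key _ (FA.Frob.vcEquiv_some _ _ h) h₁ h₂
  refine ⟨Sum.elim (fun i => ι (P i)) (fun i => Ω (ι (P i))), ?_, fun i => rfl⟩
  rw [Fintype.linearIndependent_iff]
  intro c hc
  rw [Fintype.sum_sum_type] at hc
  simp only [Sum.elim_inl, Sum.elim_inr, ← map_zsmul, ← map_sum] at hc
  set A := ∑ i, c (.inl i) • P i with hA
  set B := ∑ i, c (.inr i) • P i with hB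
  have hc' : ι A + Ω (ι B) = 0 := hc
  have hB0 : B = 0 := by
    by_contra hne
    obtain ⟨x, y, h, hBe⟩ : ∃ x y h, B = .some x y h := by
      rcases hB' : B with _ | ⟨x, y, h⟩
      exacts [absurd hB' hne, ⟨x, y, h, rfl⟩]
    obtain ⟨h', e'⟩ := hΩsome (x := g x) (y := g y)
      (mordellCurve_map g k ▸ ((mordellCurve k).toAffine.map_nonsingular g.injective x y).2 h)
    rw [hBe, show ι (.some x y h) = _ from pointMap_some g _ h, e'] at hc'
    have hAeq := eq_neg_of_add_eq_zero_left hc'
    rw [Affine.Point.neg_some] at hAeq
    rcases hA' : A with _ | ⟨x', y', h''⟩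
    · rw [hA', ← Affine.Point.zero_def, map_zero] at hAeq
      exact Affine.Point.some_ne_zero _ hAeq.symm
    rw [hA', show ι (.some x' y' h'') = _ from pointMap_some g _ h'', Affine.Point.some.injEq] at hAeq
    have hx : x = 0 := by
      by_contra hx
      exact hmem (x' / x) (by
        rw [map_div₀, hAeq.1, mul_div_assoc, div_self ((map_ne_zero g).2 hx), mul_one])
    subst hx
    have h3 : (3 : ℤ) • B = 0 := by
      have hy : y ≠ (mordellCurve k).toAffine.negY 0 y := fun hy => by
        have hy2 : 2 * y = 0 := by
          simp [Affine.negY, mordellCurve] at hy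
          linear_combination hy
        have hns := (Affine.nonsingular_iff _ _).1 h
        simp [mordellCurve] at hns
        simp [Affine.negY, mordellCurve] at hy
        exact hns.2 hy
      have hdouble : B + B = -B := by
        rw [hBe, Affine.Point.add_self_of_Y_ne hy, Affine.Point.neg_some, Affine.Point.some.injEq]
        have hsl : (mordellCurve k).toAffine.slope 0 0 y y = 0 := by
          rw [Affine.slope_of_Y_ne rfl hy]
          simp [mordellCurve]
        rw [hsl]
        constructor <;> simp [Affine.addX, Affine.addY, Affine.negAddY, Affine.negY, mordellCurve]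
      calc (3 : ℤ) • B = B + B + B := by abel
        _ = 0 := by rw [hdouble, neg_add_cancel]
    have hall : ∀ i, 3 * c (.inr i) = 0 := by
      refine Fintype.linearIndependent_iff.1 hP _ ?_
      simp only [mul_zsmul, ← Finset.smul_sum]
      exact h3
    refine hne ?_
    rw [hB]
    refine Finset.sum_eq_zero fun i _ => ?_
    have h0 : c (Sum.inr i) = 0 := by linarith [hall i]
    rw [h0, zero_smul]
  rw [hB0, map_zero, map_zero, add_zero] at hc'
  have hA0 : A = 0 := hinj (hc'.trans (map_zero ι).symm)
  rintro (i | i)
  · exact Fintype.linearIndependent_iff.1 hP _ hA0 i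
  · exact Fintype.linearIndependent_iff.1 hP _ hB0 i

end FA.MordellCubes
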