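import Fermat.Agent.MordellCubes.Independent
import Fermat.Agent.MordellCubes.Omega
import Fermat.Agent.Hilbertian.Irreducibility
import Fermat.Agent.Twists.KroneckerChar
import Mathlib.FieldTheory.PrimitiveElement
import Mathlib.NumberTheory.NumberField.Basic

/-!
# Infinitely many curves of rank at least four over `ℚ`, eight with a cube root of unity

The constant of the family has infinitely many square classes, also over a number field, because
only finitely many rational square classes become trivial there.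
-/

set_option autoImplicit false
set_option linter.unusedSectionVars false
set_option linter.style.haveILetI false

noncomputable section

open WeierstrassCurve Polynomial
open FA.FunctionFieldRank (pointMap)
open Fermat.Agent.Hilbertian
open scoped Classical IntermediateField

namespace FA.MordellCubes

attribute [local instance 2000] FA.MestreRank.ratDecEq

theorem famK_intCast (t : ℤ) : ((famK t : ℤ) : ℚ) = famK (t : ℚ) := by
  rw [← eq_intCast (Int.castRingHom ℚ), map_famK, eq_intCast]

/-- No constant multiple of the constant of the family is a square. -/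
theorem famK_not_const_square {d : ℚ} (hd : d ≠ 0) : ¬IsSquare (C d * famK (X : ℚ[X])) := by
  intro h
  have hev : ∀ t : ℤ, IsSquare (d * famK (t : ℚ)) := fun t => by
    have := h.map (evalRingHom (t : ℚ))
    rwa [map_mul, map_famK, coe_evalRingHom, eval_C, eval_X] at this
  have hsq : IsSquare ((famK (0 : ℤ) * famK (2 : ℤ) : ℤ) : ℚ) := by
    obtain ⟨a, ha⟩ := hev 0
    obtain ⟨b, hb⟩ := hev 2
    refine ⟨a * b / d, ?_⟩
    rw [Int.cast_mul, famK_intCast, famK_intCast]
    field_simp
    linear_combination (d * famK ((2 : ℤ) : ℚ)) * ha + (a * a) * hb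
  obtain ⟨r, hr⟩ := Rat.isSquare_intCast_iff.1 hsq
  have h11 := congrArg (Int.cast : ℤ → ZMod 11) hr
  rw [show famK (0 : ℤ) * famK (2 : ℤ) = 10897453584 * 1783761235810064 by decide +kernel] at h11
  push_cast at h11
  revert h11
  generalize (r : ZMod 11) = z
  revert z
  decide +kernel

/-- **Good parameters avoid any finitely many square classes.** -/
theorem exists_parameter (D : Finset ℚ) (hD : ∀ d ∈ D, d ≠ 0) :
    ∃ t : ℤ, (t : ℚ) ∉ exceptional ∧ ∀ d ∈ D, ¬IsSquare (d * famK (t : ℚ)) := by
  by_contra hno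
  push Not at hno
  have hd : DensityZero (⋃ d ∈ D, {t : ℤ | IsSquare ((C d * famK (X : ℚ[X])).eval (t : ℚ))}) :=
    densityZero_biUnion _ fun d hd => by_contra fun h =>
      famK_not_const_square (hD d hd) (isSquare_of_square_values h)
  have hx : DensityZero {t : ℤ | (t : ℚ) ∈ exceptional} :=
    densityZero_of_finite (finite_exceptional.preimage Int.cast_injective.injOn)
  have hall : DensityZero (Set.univ : Set ℤ) := (hx.union hd).mono fun t _ => by
    by_cases ht : (t : ℚ) ∈ exceptional
    · exact Or.inl ht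
    obtain ⟨d, hd, hsq⟩ := hno t ht
    refine Or.inr (Set.mem_biUnion hd ?_)
    show IsSquare _
    rwa [eval_mul, eval_C, ← coe_evalRingHom, map_famK, coe_evalRingHom, eval_X]
  obtain ⟨n, hn⟩ := hall.infinite_nat.nonempty
  exact hn trivial

variable {K : Type*} [Field K] [NumberField K]

theorem mem_adjoin_sqrt {s x : K} {d : ℚ} (hs : s ^ 2 = algebraMap ℚ K d) (hx : x ∈ ℚ⟮s⟯) :
    ∃ a b : ℚ, x = algebraMap ℚ K a + algebraMap ℚ K b * s := by
  rw [← IntermediateField.mem_toSubalgebra,
    IntermediateField.adjoin_simple_toSubalgebra_of_isAlgebraic (Algebra.IsAlgebraic.isAlgebraic s)]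
    at hx
  induction hx using Algebra.adjoin_induction with
  | mem x hx => exact ⟨0, 1, by rw [Set.mem_singleton_iff.1 hx, map_zero, map_one, zero_add, one_mul]⟩
  | algebraMap r => exact ⟨r, 0, by rw [map_zero, zero_mul, add_zero]⟩
  | add x y _ _ hx hy =>
    obtain ⟨a, b, rfl⟩ := hx
    obtain ⟨a', b', rfl⟩ := hy
    exact ⟨a + a', b + b', by rw [map_add, map_add]; ring⟩
  | mul x y _ _ hx hy =>
    obtain ⟨a, b, rfl⟩ := hx
    obtain ⟨a', b', rfl⟩ := hy
    refine ⟨a * a' + b * b' * d, a * b' + b * a', ?_⟩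
    simp only [map_add, map_mul, ← hs]
    ring

/-- **Finitely many squarefree integers become squares in a number field.** -/
theorem finite_squarefree_squares :
    {d : ℤ | Squarefree d ∧ ∃ s : K, s ^ 2 = (d : K)}.Finite := by
  haveI : Finite (IntermediateField ℚ K) :=
    Field.finite_intermediateField_of_exists_primitive_element ℚ K
      (Field.exists_primitive_element ℚ K)
  set T := {d : ℤ | Squarefree d ∧ ∃ s : K, s ^ 2 = (d : K)}
  let F : T → IntermediateField ℚ K := fun d => ℚ⟮d.2.2.choose⟯
  haveI : Finite T := Finite.of_injective F fun d e hde => by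
    obtain ⟨d, hd, hex⟩ := d
    obtain ⟨e, he, hex'⟩ := e
    have hs : hex.choose ^ 2 = algebraMap ℚ K (d : ℚ) := by
      rw [map_intCast]; exact hex.choose_spec
    have ht : hex'.choose ^ 2 = algebraMap ℚ K (e : ℚ) := by
      rw [map_intCast]; exact hex'.choose_spec
    simp only [F] at hde
    revert hs ht hde
    generalize hex.choose = s
    generalize hex'.choose = s'
    intro hde hs ht
    have key : IsSquare (((d * e : ℤ)) : ℚ) := by
      by_cases hr : ∃ r : ℚ, s = algebraMap ℚ K r
      · obtain ⟨r, rfl⟩ := hr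
        obtain ⟨a, b, hab⟩ := mem_adjoin_sqrt hs
          (hde ▸ IntermediateField.mem_adjoin_simple_self ℚ s')
        refine ⟨r * (a + b * r), (algebraMap ℚ K).injective ?_⟩
        simp only [Int.cast_mul, map_mul, map_add, ← hs, ← ht, hab]
        ring
      · obtain ⟨a, b, hab⟩ := mem_adjoin_sqrt hs
          (hde ▸ IntermediateField.mem_adjoin_simple_self ℚ s')
        have hrel : algebraMap ℚ K (2 * a * b) * s =
            algebraMap ℚ K ((e : ℚ) - a ^ 2 - b ^ 2 * d) := by
          rw [hab] at ht
          simp only [map_sub, map_mul, map_pow, map_ofNat, ← ht, ← hs]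
          ring
        have hab0 : a * b = 0 := by
          by_contra h
          refine hr ⟨((e : ℚ) - a ^ 2 - b ^ 2 * d) / (2 * a * b), ?_⟩
          rw [map_div₀, ← hrel, mul_comm, mul_div_assoc, div_self ?_, mul_one]
          exact (_root_.map_ne_zero _).2 (by rw [mul_assoc]; exact mul_ne_zero two_ne_zero h)
        rcases mul_eq_zero.1 hab0 with rfl | rfl
        · refine ⟨b * d, (algebraMap ℚ K).injective ?_⟩
          simp only [Int.cast_mul, map_mul, ← ht, hab, map_zero, zero_add, ← hs]
          ring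
        · exfalso
          rw [map_zero, zero_mul, add_zero] at hab
          have hmem : s ∈ (⊥ : IntermediateField ℚ K) := by
            have h1 : ℚ⟮s'⟯ = ⊥ := by
              rw [IntermediateField.adjoin_simple_eq_bot_iff, IntermediateField.mem_bot]
              exact ⟨a, hab.symm⟩
            rw [← h1, ← hde]
            exact IntermediateField.mem_adjoin_simple_self ℚ s
          obtain ⟨r, hr'⟩ := IntermediateField.mem_bot.1 hmem
          exact hr ⟨r, hr'.symm⟩
    obtain ⟨n, hn⟩ := Rat.isSquare_intCast_iff.1 key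
    obtain ⟨m, rfl⟩ := (hd.dvd_pow_iff_dvd two_ne_zero).1
      (show d ∣ n ^ 2 from ⟨e, by rw [hn]; ring⟩)
    have he' : e = d * (m * m) := mul_left_cancel₀ hd.ne_zero (by rw [hn]; ring)
    have hm := he m ⟨d, by rw [he']; ring⟩
    refine Subtype.ext ?_
    show d = e
    rw [he', Int.isUnit_mul_self hm, mul_one]
  exact Set.toFinite T

/-- The parameters at which everything works. -/
def Good (t : ℤ) : Prop := (t : ℚ) ∉ exceptional

theorem Good.ne {t : ℤ} (h : Good t) : famK (t : ℚ) ≠ 0 := (not_not.1 h).1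

/-- **An infinite sequence of good parameters with curves pairwise non-isomorphic over `K`.** -/
theorem exists_sequence :
    ∃ t : ℕ → ℤ, (∀ i, Good (t i)) ∧ ∀ i j, i ≠ j → ∀ u : K, u ≠ 0 →
      (famK (t i) : ℤ) ≠ u ^ 6 * ((famK (t j) : ℤ) : K) := by
  let r : ℤ → ℤ → Prop := fun x y => ∀ u : K, u ≠ 0 →
    ((famK x : ℤ) : K) ≠ u ^ 6 * ((famK y : ℤ) : K)
  haveI : Std.Symm r := ⟨fun x y h u hu e => h u⁻¹ (inv_ne_zero hu) (by
    rw [e, ← mul_assoc, ← mul_pow, inv_mul_cancel₀ hu, one_pow, one_mul])⟩
  obtain ⟨t, ht, hpair⟩ := exists_seq_of_forall_finset_exists' Good r (fun s hs => by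
    obtain ⟨y, hy, hcl⟩ := exists_parameter
      (((finite_squarefree_squares (K := K)).toFinset ×ˢ s).image
        fun p : ℤ × ℤ => (p.1 : ℚ) * famK (p.2 : ℚ)) (by
      intro d hd
      obtain ⟨⟨a, x⟩, hax, rfl⟩ := Finset.mem_image.1 hd
      rw [Finset.mem_product, Set.Finite.mem_toFinset] at hax
      exact mul_ne_zero (Int.cast_ne_zero.2 hax.1.1.ne_zero) (hs x hax.2).ne)
    refine ⟨y, hy, fun x hx u hu e => ?_⟩
    obtain ⟨D, c, hD, hc, hq⟩ :=
      FA.Twists.exists_squarefree_mul_sq (mul_ne_zero (hs x hx).ne (Good.ne hy))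
    have hcK : algebraMap ℚ K c ≠ 0 := (_root_.map_ne_zero _).2 hc
    have hmem : D ∈ (finite_squarefree_squares (K := K)).toFinset := by
      rw [Set.Finite.mem_toFinset]
      refine ⟨hD, u ^ 3 * ((famK y : ℤ) : K) / algebraMap ℚ K c, ?_⟩
      have hqK := congrArg (algebraMap ℚ K) hq
      rw [map_mul, map_mul, map_pow, ← famK_intCast, ← famK_intCast, map_intCast, map_intCast,
        map_intCast, e] at hqK
      rw [div_pow, div_eq_iff (pow_ne_zero 2 hcK)]
      linear_combination hqK
    refine hcl _ (Finset.mem_image.2 ⟨(D, x), Finset.mem_product.2 ⟨hmem, hx⟩, rfl⟩)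
      ⟨(D : ℚ) * c, ?_⟩
    linear_combination (D : ℚ) * hq)
  exact ⟨t, ht, fun i j hij => hpair hij⟩

theorem eq_of_variableChange {a b : K} {C : VariableChange K}
    (h : C • mordellCurve a = mordellCurve b) : a = (C.u : K) ^ 6 * b := by
  have := congrArg WeierstrassCurve.c₆ h
  rw [variableChange_c₆, mordellCurve_c₆, mordellCurve_c₆, Units.val_inv_eq_inv_val] at this
  have hu : (C.u : K) ≠ 0 := C.u.ne_zero
  field_simp at this
  linear_combination -this

/-- **Infinitely many `y² = x³ + k` of rank at least four over `ℚ`.** -/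
theorem infinite_rank_four :
    ∃ k : ℕ → ℤ, (∀ i, k i ≠ 0 ∧ ∃ P : Fin 4 → (mordellCurve (k i : ℚ)).toAffine.Point,
        LinearIndependent ℤ P) ∧
      ∀ i j, i ≠ j → ∀ C : VariableChange ℚ,
        C • mordellCurve (k i : ℚ) ≠ mordellCurve (k j : ℚ) := by
  obtain ⟨t, ht, hne⟩ := exists_sequence (K := ℚ)
  refine ⟨fun i => famK (t i), fun i => ?_, fun i j hij C hC =>
    hne i j hij _ C.u.ne_zero (eq_of_variableChange hC)⟩
  obtain ⟨hk, hli⟩ := not_not.1 (ht i)
  refine ⟨fun h => hk ?_, ?_⟩
  · rw [← famK_intCast]; simp only at h; rw [h, Int.cast_zero]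
  · simp only
    rw [famK_intCast]
    exact ⟨_, hli⟩

/-- **Infinitely many `y² = x³ + k` of rank at least eight over `K` containing a cube root of
unity.** -/
theorem infinite_rank_eight {ω : K} (hω : ω ^ 2 + ω + 1 = 0) :
    ∃ k : ℕ → ℤ, (∀ i, k i ≠ 0 ∧ ∃ P : Fin 8 → (mordellCurve (k i : K)).toAffine.Point,
        LinearIndependent ℤ P) ∧
      ∀ i j, i ≠ j → ∀ C : VariableChange K,
        C • mordellCurve (k i : K) ≠ mordellCurve (k j : K) := by
  obtain ⟨t, ht, hne⟩ := exists_sequence (K := K)
  refine ⟨fun i => famK (t i), fun i => ?_, fun i j hij C hC =>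
    hne i j hij _ C.u.ne_zero (eq_of_variableChange hC)⟩
  obtain ⟨hk, hli⟩ := not_not.1 (ht i)
  refine ⟨fun h => hk ?_, ?_⟩
  · rw [← famK_intCast]; simp only at h; rw [h, Int.cast_zero]
  · have hmem : ∀ a : ℚ, algebraMap ℚ K a ≠ ω := fun a ha => by
      have : a ^ 2 + a + 1 = 0 := (algebraMap ℚ K).injective (by
        rw [map_add, map_add, map_pow, map_one, map_zero, ha, hω])
      nlinarith [sq_nonneg (2 * a + 1)]
    obtain ⟨Q, hQ, -⟩ := linearIndependent_rotated (algebraMap ℚ K) hω hmem hk (famPoint hk) hli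
    simp only
    have hcast : ((famK (t i) : ℤ) : K) = algebraMap ℚ K (famK ((t i : ℤ) : ℚ)) := by
      rw [← famK_intCast, map_intCast]
    rw [hcast]
    exact ⟨fun j : Fin 8 => Q ((finSumFinEquiv (m := 4) (n := 4)).symm j),
      hQ.comp _ (finSumFinEquiv (m := 4) (n := 4)).symm.injective⟩

end FA.MordellCubes
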