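import Fermat.Agent.MordellCubes.Points
import Fermat.Agent.MestreRank.Classes
import Fermat.Agent.LangNeron.Silverman
import Mathlib.RingTheory.Polynomial.RationalRoot

/-!
# The four points are independent for all but finitely many values of the parameter

At `t = 0` the quadratic characters at `11, 17, 29, 47` separate the four points and there is no
point of order two. So they are independent over `ℚ(T)`, and Silverman's theorem transfers this to
almost every fibre.
-/

set_option autoImplicit false
set_option linter.unusedSectionVars false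
set_option linter.style.haveILetI false

noncomputable section

open WeierstrassCurve Polynomial
open FA.NeronSpecialisation (genW fibreW specW)
open FA.MestreRank (intCurve ratDecEq bit exists_classHom linearIndependent_of_classes)
open scoped Classical

namespace FA.MordellCubes

attribute [local instance 2000] ratDecEq

variable {F : Type*} [Field F] [CharZero F]

/-- The four points at a parameter. -/
def famPoint {t : F} (hk : famK t ≠ 0) (i : Fin 4) : (mordellCurve (famK t)).toAffine.Point :=
  .some _ _ (nonsingular_of_eq hk (fam_equation t i))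

/-- Independence only depends on the coordinates. -/
theorem linearIndependent_of_coords {W W' : WeierstrassCurve F} (e : W = W') {ι : Type*}
    {P : ι → W.toAffine.Point} {P' : ι → W'.toAffine.Point} {x y : ι → F}
    (hP : ∀ i, ∃ h, P i = .some (x i) (y i) h) (hP' : ∀ i, ∃ h, P' i = .some (x i) (y i) h)
    (hli : LinearIndependent ℤ P) : LinearIndependent ℤ P' := by
  subst e
  rwa [show P' = P from funext fun i => by
    obtain ⟨h, e₁⟩ := hP i
    obtain ⟨h', e₂⟩ := hP' i
    rw [e₁, e₂]]

section AtZero

instance fact_prime_eleven' : Fact (Nat.Prime 11) := ⟨by norm_num⟩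
instance fact_prime_seventeen' : Fact (Nat.Prime 17) := ⟨by norm_num⟩
instance fact_prime_twentynine' : Fact (Nat.Prime 29) := ⟨by norm_num⟩
instance fact_prime_fortyseven' : Fact (Nat.Prime 47) := ⟨by norm_num⟩

/-- The constant at `0`. -/
def baseK : ℤ := famK 0
/-- The abscissae at `0`. -/
def baseX (i : Fin 4) : ℤ := famX 0 i
/-- The ordinates at `0`. -/
def baseY (i : Fin 4) : ℤ := famY 0 i

theorem famK_zero : baseK = 10897453584 := by decide +kernel

theorem baseK_cast : (baseK : ℚ) = famK 0 := by
  rw [baseK, ← eq_intCast (Int.castRingHom ℚ), map_famK, map_zero]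

theorem baseX_cast (i : Fin 4) : (baseX i : ℚ) = famX 0 i := by
  rw [baseX, ← eq_intCast (Int.castRingHom ℚ), map_famX, map_zero]

theorem baseY_cast (i : Fin 4) : (baseY i : ℚ) = famY 0 i := by
  rw [baseY, ← eq_intCast (Int.castRingHom ℚ), map_famY, map_zero]

instance base_isElliptic : (intCurve 0 0 baseK).IsElliptic :=
  (WeierstrassCurve.isElliptic_iff _).2 (isUnit_iff_ne_zero.2 (by
    rw [famK_zero]
    norm_num [intCurve, WeierstrassCurve.Δ, WeierstrassCurve.b₂, WeierstrassCurve.b₄,
      WeierstrassCurve.b₆, WeierstrassCurve.b₈]))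

theorem base_equation (i : Fin 4) : (intCurve 0 0 baseK).toAffine.Equation
    ((baseX i : ℚ) / ((1 : ℤ) : ℚ) ^ 2) (baseY i : ℚ) := by
  rw [Affine.equation_iff]
  simp only [Int.cast_zero, Int.cast_one, one_pow, div_one, zero_mul, add_zero]
  rw [baseX_cast, baseY_cast, baseK_cast]
  exact fam_equation (0 : ℚ) i

/-- The points at `0`. -/
def basePoint (i : Fin 4) : (intCurve 0 0 baseK).toAffine.Point :=
  .some _ _ (Affine.equation_iff_nonsingular.mp (base_equation i))

/-- The table of characters. -/
def charTable : Matrix (Fin 4) (Fin 4) (ZMod 2) :=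
  !![0, 0, 1, 1; 0, 0, 1, 0; 1, 0, 1, 0; 0, 1, 1, 1]

/-- Its inverse. -/
def charInv : Matrix (Fin 4) (Fin 4) (ZMod 2) :=
  !![0, 1, 1, 0; 1, 0, 0, 1; 0, 1, 0, 0; 1, 1, 0, 0]

theorem base_classAt {p : ℕ} [Fact p.Prime] (hp : p ≠ 2) (θ : ZMod p) (k : Fin 4)
    (h₁ : θ ^ 3 + ((0 : ℤ) : ZMod p) * θ ^ 2 + ((0 : ℤ) : ZMod p) * θ +
      (baseK : ZMod p) = 0)
    (h₂ : 3 * θ ^ 2 + 2 * ((0 : ℤ) : ZMod p) * θ + ((0 : ℤ) : ZMod p) ≠ 0)
    (h₃ : ∀ i, (baseX i : ZMod p) - θ * ((1 : ℤ) : ZMod p) ^ 2 ≠ 0 ∧
      bit ((baseX i : ZMod p) - θ * ((1 : ℤ) : ZMod p) ^ 2) = charTable k i) :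
    ∃ φ : (intCurve 0 0 baseK).toAffine.Point →+ ZMod 2,
      ∀ i, φ (basePoint i) = charTable k i := by
  obtain ⟨φ, hφ⟩ := exists_classHom hp h₁ h₂
  exact ⟨φ, fun i => (hφ _ 1 _ _ (by norm_num) (h₃ i).1).trans (h₃ i).2⟩

theorem base_classes (k : Fin 4) : ∃ φ : (intCurve 0 0 baseK).toAffine.Point →+ ZMod 2,
    ∀ i, φ (basePoint i) = charTable k i := by
  fin_cases k
  · exact base_classAt (p := 11) (by norm_num) 3 0 (by decide +kernel) (by decide +kernel)
      (by unfold bit; decide +kernel)
  · exact base_classAt (p := 17) (by norm_num) 3 1 (by decide +kernel) (by decide +kernel)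
      (by unfold bit; decide +kernel)
  · exact base_classAt (p := 29) (by norm_num) 10 2 (by decide +kernel) (by decide +kernel)
      (by unfold bit; decide +kernel)
  · exact base_classAt (p := 47) (by norm_num) 25 3 (by decide +kernel) (by decide +kernel)
      (by unfold bit; decide +kernel)

theorem base_no_two_torsion (P : (intCurve 0 0 baseK).toAffine.Point) (h : 2 • P = 0) :
    P = 0 := by
  rcases P with _ | ⟨x, y, hP⟩
  · rfl
  exfalso
  rw [two_nsmul, add_eq_zero_iff_eq_neg, Affine.Point.neg_some, Affine.Point.some.injEq] at h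
  have hy : y = 0 := by
    have := h.2
    simp [Affine.negY] at this
    linarith
  have he := (Affine.equation_iff x y).1 hP.1
  subst hy
  have hroot : Polynomial.aeval x (Polynomial.X ^ 3 + Polynomial.C baseK : ℤ[X]) = 0 := by
    simp at he ⊢
    linear_combination -he
  obtain ⟨r, rfl, -⟩ := exists_integer_of_is_root_of_monic (by monicity!) hroot
  have hr : r ^ 3 + baseK = 0 := by simp at hroot; exact_mod_cast hroot
  have h7 := congrArg (Int.cast : ℤ → ZMod 7) hr
  rw [famK_zero] at h7
  push_cast at h7
  revert h7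
  generalize (r : ZMod 7) = z
  revert z
  decide +kernel

theorem charInv_mul (i j : Fin 4) :
    ∑ k, charInv i k * charTable k j = if i = j then 1 else 0 := by
  revert i j
  decide +kernel

theorem linearIndependent_basePoint : LinearIndependent ℤ basePoint := by
  choose φ hφ using base_classes
  refine linearIndependent_of_classes base_no_two_torsion _ φ charInv fun i j => ?_
  simp only [hφ]
  convert charInv_mul i j

theorem famK_rat_zero_ne : famK (0 : ℚ) ≠ 0 := by norm_num [famK, cubesK, ramX, ramY, ramZ, ramW]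

/-- **Independence at `0`.** -/
theorem linearIndependent_at_zero : LinearIndependent ℤ (famPoint famK_rat_zero_ne) := by
  refine linearIndependent_of_coords (x := famX (0 : ℚ)) (y := famY (0 : ℚ)) ?_ (fun i => ?_)
    (fun i => ⟨_, rfl⟩) linearIndependent_basePoint
  · ext <;> simp [mordellCurve, baseK_cast]
  · have hx : (baseX i : ℚ) / ((1 : ℤ) : ℚ) ^ 2 = famX (0 : ℚ) i := by
      rw [baseX_cast, Int.cast_one, one_pow, div_one]
    exact ⟨hx ▸ baseY_cast i ▸ Affine.equation_iff_nonsingular.mp (base_equation i), by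
      simp only [basePoint, Affine.Point.some.injEq]; exact ⟨hx, baseY_cast i⟩⟩

end AtZero

/-- The equation over `ℚ[T]`. -/
def cubesFamily : WeierstrassCurve ℚ[X] := mordellCurve (famK X)

theorem famK_generic_ne : famK (algebraMap ℚ[X] (RatFunc ℚ) X) ≠ 0 := by
  rw [← map_famK]
  refine RatFunc.algebraMap_ne_zero fun h => famK_rat_zero_ne ?_
  have := congrArg (evalRingHom (0 : ℚ)) h
  rwa [map_famK, map_zero, coe_evalRingHom, eval_X] at this

theorem genW_cubesFamily :
    genW cubesFamily = mordellCurve (famK (algebraMap ℚ[X] (RatFunc ℚ) X)) := by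
  rw [genW, cubesFamily, mordellCurve_map, map_famK]

theorem fibreW_cubesFamily (t : ℚ) : fibreW cubesFamily t = mordellCurve (famK t) := by
  rw [fibreW, cubesFamily, mordellCurve_map, map_famK, coe_evalRingHom, eval_X]

theorem cubesFamily_Δ : cubesFamily.Δ ≠ 0 := fun h => by
  have := congrArg (evalRingHom (0 : ℚ)) h
  rw [← WeierstrassCurve.map_Δ, map_zero] at this
  change (fibreW cubesFamily 0).Δ = 0 at this
  rw [fibreW_cubesFamily, mordellCurve_Δ] at this
  exact mul_ne_zero (by norm_num) (pow_ne_zero 2 famK_rat_zero_ne) this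

theorem gen_nonsingular (i : Fin 4) : (genW cubesFamily).toAffine.Nonsingular
    (algebraMap ℚ[X] (RatFunc ℚ) (famX X i)) (algebraMap ℚ[X] (RatFunc ℚ) (famY X i)) := by
  rw [genW_cubesFamily, map_famX, map_famY]
  exact nonsingular_of_eq famK_generic_ne (fam_equation _ i)

/-- The four sections. -/
def genPoint (i : Fin 4) : (genW cubesFamily).toAffine.Point := .some _ _ (gen_nonsingular i)

theorem famK_ne_of_fibre {t : ℚ} (ht : (fibreW cubesFamily t).Δ ≠ 0) : famK t ≠ 0 := fun h => ht (by
  rw [fibreW_cubesFamily, mordellCurve_Δ, h]; ring)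

theorem specW_genPoint {t : ℚ} (ht : (fibreW cubesFamily t).Δ ≠ 0) (i : Fin 4) :
    ∃ h, specW cubesFamily ht (genPoint i) = .some (famX t i) (famY t i) h := by
  obtain ⟨hy, h', e⟩ := FA.NeronSpecialisation.specW_some_of_mem ht (gen_nonsingular i)
    (FA.NeronSpecialisation.algebraMap_mem_valueRing t _)
  have hx₀ : ∀ (p : ℚ[X]) (hp : algebraMap ℚ[X] (RatFunc ℚ) p ∈ FA.NeronSpecialisation.valueRing t),
      FA.NeronSpecialisation.valueAt t ⟨_, hp⟩ = p.eval t := fun p hp =>
    FA.NeronSpecialisation.valueAt_algebraMap t p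
  have ex : (famX (X : ℚ[X]) i).eval t = famX t i := by
    rw [← coe_evalRingHom, map_famX, coe_evalRingHom, eval_X]
  have ey : (famY (X : ℚ[X]) i).eval t = famY t i := by
    rw [← coe_evalRingHom, map_famY, coe_evalRingHom, eval_X]
  have key : ∀ {P : (fibreW cubesFamily t).toAffine.Point} {u v : ℚ}
      (h'' : (fibreW cubesFamily t).toAffine.Nonsingular u v), P = .some u v h'' →
      u = famX t i → v = famY t i → ∃ h, P = .some (famX t i) (famY t i) h := by
    rintro P u v h'' e' rfl rfl
    exact ⟨h'', e'⟩
  exact key h' e ((hx₀ _ _).trans ex) ((hx₀ _ hy).trans ey)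

/-- **The four sections are independent over `ℚ(T)`.** -/
theorem linearIndependent_genPoint : LinearIndependent ℤ genPoint := by
  have ht : (fibreW cubesFamily 0).Δ ≠ 0 := by
    rw [fibreW_cubesFamily, mordellCurve_Δ]
    exact mul_ne_zero (by norm_num) (pow_ne_zero 2 famK_rat_zero_ne)
  refine LinearIndependent.of_comp (specW cubesFamily ht).toIntLinearMap ?_
  exact linearIndependent_of_coords (fibreW_cubesFamily 0).symm (fun i => ⟨_, rfl⟩)
    (fun i => specW_genPoint ht i) linearIndependent_at_zero

/-- The parameters at which the four points are not independent. -/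
def exceptional : Set ℚ :=
  {t | ¬∃ hk : famK t ≠ 0, LinearIndependent ℤ (famPoint hk)}

/-- **All but finitely many parameters give four independent points.** -/
theorem finite_exceptional : exceptional.Finite := by
  refine (FA.LangNeron.finite_bad_parameters (K := ℚ) cubesFamily_Δ).subset ?_
  intro t ht hgood
  obtain ⟨h0, hinj⟩ := hgood
  refine ht ⟨famK_ne_of_fibre h0, linearIndependent_of_coords (fibreW_cubesFamily t)
    (fun i => specW_genPoint h0 i) (fun i => ⟨_, rfl⟩) ?_⟩
  exact linearIndependent_genPoint.map' (specW cubesFamily h0).toIntLinearMap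
    (LinearMap.ker_eq_bot.2 hinj)

end FA.MordellCubes
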