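import Mathlib.AlgebraicGeometry.EllipticCurve.VariableChange
import Mathlib.Data.Fin.VecNotation
import Mathlib.Tactic.LinearCombination
import Mathlib.Tactic.FinCases
import Mathlib.AlgebraicGeometry.EllipticCurve.Affine.Point

/-!
# Four points on `y² = x³ + k` from a sum of three cubes that is a cube

Let `X³ + Y³ + Z³ = W³` and `A = (Y Z)³`, `B = (Z X)³`, `C = (X Y)³`. With
`k = 16 ((A + B + C)² - 4 (X Y Z W)³)` the curve `y² = x³ + k` has points of abscissae
`4 X Y Z {X, Y, Z, W}`. Ramanujan's solution makes `k` a polynomial in one parameter.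
-/

set_option autoImplicit false
set_option linter.unusedSectionVars false
set_option linter.style.haveILetI false

open WeierstrassCurve

namespace FA.MordellCubes

variable {R S : Type*} [CommRing R] [CommRing S]

/-- `y² = x³ + k`. -/
def mordellCurve (k : R) : WeierstrassCurve R := ⟨0, 0, 0, 0, k⟩

theorem mordellCurve_map (f : R →+* S) (k : R) : (mordellCurve k).map f = mordellCurve (f k) := by
  ext <;> simp [mordellCurve, WeierstrassCurve.map]

theorem mordellCurve_Δ (k : R) : (mordellCurve k).Δ = -432 * k ^ 2 := by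
  simp [mordellCurve, WeierstrassCurve.Δ, WeierstrassCurve.b₂, WeierstrassCurve.b₄,
    WeierstrassCurve.b₆, WeierstrassCurve.b₈]
  ring

theorem mordellCurve_c₆ (k : R) : (mordellCurve k).c₆ = -864 * k := by
  simp [mordellCurve, WeierstrassCurve.c₆, WeierstrassCurve.b₂, WeierstrassCurve.b₄,
    WeierstrassCurve.b₆]
  ring

section Field

variable {F : Type*} [Field F] [CharZero F]

theorem mordellCurve_equation {k x y : F} :
    (mordellCurve k).toAffine.Equation x y ↔ y ^ 2 = x ^ 3 + k := by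
  rw [Affine.equation_iff]; simp [mordellCurve]

theorem isElliptic_mordellCurve {k : F} (hk : k ≠ 0) : (mordellCurve k).IsElliptic :=
  (WeierstrassCurve.isElliptic_iff _).2 (isUnit_iff_ne_zero.2 (by
    rw [mordellCurve_Δ]; exact mul_ne_zero (by norm_num) (pow_ne_zero 2 hk)))

theorem nonsingular_of_eq {k x y : F} (hk : k ≠ 0) (h : y ^ 2 = x ^ 3 + k) :
    (mordellCurve k).toAffine.Nonsingular x y := by
  haveI := isElliptic_mordellCurve hk
  exact Affine.equation_iff_nonsingular.mp (mordellCurve_equation.2 h)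

end Field

/-- The constant `k`. -/
def cubesK (X Y Z W : R) : R :=
  16 * (((Y * Z) ^ 3 + (Z * X) ^ 3 + (X * Y) ^ 3) ^ 2 - 4 * (X * Y * Z * W) ^ 3)

/-- The four abscissae. -/
def cubesX (X Y Z W : R) : Fin 4 → R :=
  ![4 * (X * Y * Z) * X, 4 * (X * Y * Z) * Y, 4 * (X * Y * Z) * Z, 4 * (X * Y * Z) * W]

/-- The four ordinates. -/
def cubesY (X Y Z : R) : Fin 4 → R :=
  ![4 * (-(Y * Z) ^ 3 + (Z * X) ^ 3 + (X * Y) ^ 3), 4 * ((Y * Z) ^ 3 - (Z * X) ^ 3 + (X * Y) ^ 3),
    4 * ((Y * Z) ^ 3 + (Z * X) ^ 3 - (X * Y) ^ 3), 4 * ((Y * Z) ^ 3 + (Z * X) ^ 3 + (X * Y) ^ 3)]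

/-- **The four points lie on the curve.** -/
theorem cubes_equation {X Y Z W : R} (h : X ^ 3 + Y ^ 3 + Z ^ 3 = W ^ 3) (i : Fin 4) :
    cubesY X Y Z i ^ 2 = cubesX X Y Z W i ^ 3 + cubesK X Y Z W := by
  fin_cases i
  · simp [cubesY, cubesX, cubesK]; linear_combination -64 * (X * Y * Z) ^ 3 * h
  · simp [cubesY, cubesX, cubesK]; linear_combination -64 * (X * Y * Z) ^ 3 * h
  · simp [cubesY, cubesX, cubesK]; linear_combination -64 * (X * Y * Z) ^ 3 * h
  · simp [cubesY, cubesX, cubesK]; ring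

/-- Ramanujan's first number. -/
def ramX (t : R) : R := 3 * t ^ 2 + 5 * t - 5
/-- Ramanujan's second number. -/
def ramY (t : R) : R := 4 * t ^ 2 - 4 * t + 6
/-- Ramanujan's third number. -/
def ramZ (t : R) : R := 5 * t ^ 2 - 5 * t - 3
/-- Ramanujan's fourth number. -/
def ramW (t : R) : R := 6 * t ^ 2 - 4 * t + 4

theorem ramanujan_identity (t : R) : ramX t ^ 3 + ramY t ^ 3 + ramZ t ^ 3 = ramW t ^ 3 := by
  simp only [ramX, ramY, ramZ, ramW]; ring

/-- The constant of the family. -/
def famK (t : R) : R := cubesK (ramX t) (ramY t) (ramZ t) (ramW t)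

/-- The abscissae of the family. -/
def famX (t : R) : Fin 4 → R := cubesX (ramX t) (ramY t) (ramZ t) (ramW t)

/-- The ordinates of the family. -/
def famY (t : R) : Fin 4 → R := cubesY (ramX t) (ramY t) (ramZ t)

theorem fam_equation (t : R) (i : Fin 4) : famY t i ^ 2 = famX t i ^ 3 + famK t :=
  cubes_equation (ramanujan_identity t) i

theorem map_famK (f : R →+* S) (t : R) : f (famK t) = famK (f t) := by
  simp [famK, cubesK, ramX, ramY, ramZ, ramW, map_ofNat]

theorem map_famX (f : R →+* S) (t : R) (i : Fin 4) : f (famX t i) = famX (f t) i := by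
  fin_cases i <;> simp [famX, cubesX, ramX, ramY, ramZ, ramW, map_ofNat]

theorem map_famY (f : R →+* S) (t : R) (i : Fin 4) : f (famY t i) = famY (f t) i := by
  fin_cases i <;> simp [famY, cubesY, ramX, ramY, ramZ, map_ofNat]

end FA.MordellCubes
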